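import Fermat.Agent.A2.Mod.H872.GaussJ
import Fermat.Agent.S37.H700.GaussMain
import Fermat.Prelude.Thm_ModularCurve_coeffMap_qExpand

/-!
# A2 / MOD leaf L7 (helper872), part 3: polynomials in `j_d` as integral series

`L ⊇ ℚ` a field, `A` a valuation subring of `L`.  For a polynomial `p ∈ A[X]` the series
`p(j_d) = qExpand d (evalJ p) ∈ A((t))`; its image in `L((t))` and its reduction.
-/

set_option autoImplicit false
set_option linter.unusedSectionVars false

noncomputable section

namespace Fermat.Agent.A2.Mod.H872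

open ModularCurve HahnSeries Polynomial Fermat.Agent.A2.H708 Fermat.Agent.S37.H700

variable {L : Type*} [Field L] [Algebra ℚ L] (A : ValuationSubring L)

/-- `p(j_d)` as an `A`-integral series. -/
def polyJ (d : ℕ) [NeZero d] (p : Polynomial A) : LaurentSeries A :=
  qExpand A d (evalJ A p)

theorem incl_polyJ (d : ℕ) [NeZero d] (p : Polynomial A) :
    incl A (polyJ A d p) = qExpand L d (evalJ L (p.map A.subtype)) := by
  unfold polyJ
  rw [coeffMap_qExpand, coeffMap_evalJ]

theorem red_polyJ (d : ℕ) [NeZero d] (p : Polynomial A) :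
    red A (polyJ A d p) =
      qExpand (IsLocalRing.ResidueField A) d
        (evalJ (IsLocalRing.ResidueField A) (p.map (IsLocalRing.residue A))) := by
  unfold polyJ
  rw [coeffMap_qExpand, coeffMap_evalJ]

theorem red_polyJ_ne_zero (d : ℕ) [NeZero d] {p : Polynomial A}
    (hp : p.map (IsLocalRing.residue A) ≠ 0) : red A (polyJ A d p) ≠ 0 := by
  rw [red_polyJ]
  intro h
  have h1 : evalJ (IsLocalRing.ResidueField A) (p.map (IsLocalRing.residue A)) = 0 :=
    qExpand_injective d (by rw [h, map_zero])
  exact hp ((evalJ_eq_zero_iff _).mp h1)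

theorem polyJ_eq_zero_iff (d : ℕ) [NeZero d] (p : Polynomial A) :
    incl A (polyJ A d p) = 0 ↔ p = 0 := by
  rw [incl_polyJ]
  constructor
  · intro h
    have h1 : evalJ L (p.map A.subtype) = 0 := qExpand_injective d (by rw [h, map_zero])
    have h2 := (evalJ_eq_zero_iff L).mp h1
    exact Polynomial.map_injective A.subtype Subtype.val_injective (by rw [h2, Polynomial.map_zero])
  · rintro rfl
    rw [Polynomial.map_zero, evalJ_zero, map_zero]

/-- In a discrete valuation ring with uniformiser `w`: a polynomial with zero reduction is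
divisible by `w`. -/
theorem C_dvd_of_map_residue_eq_zero [IsDiscreteValuationRing A] {w : A} (hw : Irreducible w)
    {p : Polynomial A} (hp : p.map (IsLocalRing.residue A) = 0) : Polynomial.C w ∣ p := by
  rw [Polynomial.C_dvd_iff_dvd_coeff]
  intro i
  have h1 : IsLocalRing.residue A (p.coeff i) = 0 := by
    have := congrArg (fun r => Polynomial.coeff r i) hp
    simpa [Polynomial.coeff_map] using this
  rw [IsLocalRing.residue_eq_zero_iff, hw.maximalIdeal_eq, Ideal.mem_span_singleton] at h1
  exact h1

theorem map_residue_ne_zero_of_not_C_dvd [IsDiscreteValuationRing A] {w : A}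
    (hw : Irreducible w) {p : Polynomial A} (hp : ¬ Polynomial.C w ∣ p) :
    p.map (IsLocalRing.residue A) ≠ 0 :=
  fun h => hp (C_dvd_of_map_residue_eq_zero A hw h)

/-- The generator `j_d` as a series over `L`. -/
theorem coeffEmb_qExpand_jq (d : ℕ) [NeZero d] :
    coeffEmb L (qExpand ℚ d jq) = qExpand L d (jqModC L) := by
  rw [coeffEmb, coeffMap_qExpand, ← jqModC_rat, coeffMap_jqModC]

/-- Evaluation of `p ∈ A[X]` at an element `x` of a subfield `F ⊆ L((t))` whose series is
`j_d`, read in `L((t))`. -/
theorem coe_eval₂_eq_incl_polyJ (F : IntermediateField L (LaurentSeries L)) (d : ℕ) [NeZero d]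
    {x : F} (hx : (x : LaurentSeries L) = qExpand L d (jqModC L)) (p : Polynomial A) :
    ((p.eval₂ ((algebraMap L F).comp A.subtype) x : F) : LaurentSeries L) =
      incl A (polyJ A d p) := by
  rw [incl_polyJ]
  have h1 : ((p.eval₂ ((algebraMap L F).comp A.subtype) x : F) : LaurentSeries L) =
      p.eval₂ (F.val.toRingHom.comp ((algebraMap L F).comp A.subtype)) (F.val x) :=
    Polynomial.hom_eval₂ p _ F.val.toRingHom x
  rw [h1]
  unfold evalJ
  rw [Polynomial.hom_eval₂, Polynomial.eval₂_map]
  have hx' : F.val x = qExpand L d (jqModC L) := hx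
  rw [hx']
  congr 1
  ext r : 1
  show algebraMap L (LaurentSeries L) (r : L) = qExpand L d (HahnSeries.C (r : L))
  rw [qExpand_C, algebraMap_laurentSeries_eq_single]
  rfl

end Fermat.Agent.A2.Mod.H872
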