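import Fermat.Agent.A2.H48.Qep2Le

/-!
# A2 / MOD leaf L7 (helper872), part 1: uniqueness of the Gauss extension (abstract)

Mathlib + `H48` (helper48's QEP2 library) only.

`R` a factorial domain with prime element `ϖ`, `F` a field with an injective ring homomorphism
`R[X] → F` (`X ↦ x`), `V₁`, `V₂` valuation rings of `F` which both contain `R[X]`, have maximal
ideal generated by `ϖ` and induce the Gauss valuation on `Frac R[X]`.  If there are `n` elements
of `V₁` whose residues are linearly independent over `(R/ϖ)[X]` and which span `F` over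
`Frac R[X]` (denominator form), then `V₁ = V₂`.

This is the case `f₁ = n = [F : K]` of the fundamental inequality; it is deduced from
`H48.GaussPairLe.card` applied to the families `b` and `c = (1)`.
-/

set_option autoImplicit false

namespace Fermat.Agent.A2.Mod.H872

open Polynomial Fermat.Agent.A2.H48

section Abstract

variable {R : Type*} [CommRing R] [IsDomain R] [UniqueFactorizationMonoid R]
variable {K F : Type*} [Field K] [Field F] [Algebra R[X] K] [IsFractionRing R[X] K]
  [Algebra K F] [Algebra R[X] F] [IsScalarTower R[X] K F]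

/-- Uniqueness of the Gauss extension, with an explicit fraction field `K` of `R[X]`. -/
theorem eq_of_gauss_indep_of_finrank_le [FiniteDimensional K F] {ϖ : R}
    {V₁ V₂ : ValuationSubring F} {n : ℕ} {b : Fin n → F}
    (prime : Prime ϖ)
    (unif₁ : IsUnif V₁ (algebraMap R[X] F (C ϖ)))
    (unif₂ : IsUnif V₂ (algebraMap R[X] F (C ϖ)))
    (poly₁ : ∀ P : R[X], algebraMap R[X] F P ∈ V₁)
    (poly₂ : ∀ P : R[X], algebraMap R[X] F P ∈ V₂)
    (gauss₁ : ∀ P : R[X], ¬ C ϖ ∣ P → (algebraMap R[X] F P)⁻¹ ∈ V₁)
    (gauss₂ : ∀ P : R[X], ¬ C ϖ ∣ P → (algebraMap R[X] F P)⁻¹ ∈ V₂)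
    (b_mem : ∀ i, b i ∈ V₁)
    (b_indep : ∀ a : Fin n → R[X],
      (∑ i, algebraMap R[X] F (a i) * b i) * (algebraMap R[X] F (C ϖ))⁻¹ ∈ V₁ →
        ∀ i, C ϖ ∣ a i)
    (hle : Module.finrank K F ≤ n) : V₁ = V₂ := by
  by_contra hne
  have h : GaussPairLe (K := K) ϖ V₁ V₂ b (fun _ : Fin 1 => (1 : F)) :=
    { prime := prime
      unif₁ := unif₁
      unif₂ := unif₂
      poly₁ := poly₁
      poly₂ := poly₂
      gauss₁ := gauss₁
      gauss₂ := gauss₂
      ne := hne
      b_mem := b_mem
      c_mem := fun _ => one_mem _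
      b_indep := b_indep
      c_indep := by
        intro a ha j
        by_contra hdvd
        have hj : j = 0 := Subsingleton.elim _ _
        subst hj
        have hsum : (∑ j : Fin 1, algebraMap R[X] F (a j) * 1) = algebraMap R[X] F (a 0) := by
          simp
        rw [hsum] at ha
        have h0 : algebraMap R[X] F (a 0) ≠ 0 := by
          intro h0
          have hK : algebraMap R[X] K (a 0) = 0 := by
            have h1 : algebraMap K F (algebraMap R[X] K (a 0)) = 0 := by
              rw [← IsScalarTower.algebraMap_apply]; exact h0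
            exact (map_eq_zero (algebraMap K F)).mp h1
          have : a 0 = 0 :=
            (IsFractionRing.injective R[X] K) (by rw [hK, map_zero])
          exact hdvd (this ▸ dvd_zero _)
        have hinv := gauss₂ (a 0) hdvd
        apply unif₂.inv_not_mem
        have : (algebraMap R[X] F (C ϖ))⁻¹ =
            (algebraMap R[X] F (a 0))⁻¹ *
              (algebraMap R[X] F (a 0) * (algebraMap R[X] F (C ϖ))⁻¹) := by
          rw [← mul_assoc, inv_mul_cancel₀ h0, one_mul]
        rw [this]
        exact mul_mem hinv ha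
      le := by omega }
  have hcard := h.card
  omega

end Abstract

section Lift

variable {R : Type*} [CommRing R] [IsDomain R] [UniqueFactorizationMonoid R]
variable {F : Type*} [Field F] [Algebra R[X] F] [FaithfulSMul R[X] F]

attribute [local instance] FractionRing.liftAlgebra

omit [UniqueFactorizationMonoid R] in
/-- Spanning in denominator form gives spanning over the fraction field. -/
theorem span_eq_top_of_denominators {n : ℕ} {b : Fin n → F}
    (hspan : ∀ f : F, ∃ (Q : R[X]) (P : Fin n → R[X]), Q ≠ 0 ∧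
      algebraMap R[X] F Q * f = ∑ i, algebraMap R[X] F (P i) * b i) :
    Submodule.span (FractionRing R[X]) (Set.range b) = ⊤ := by
  rw [eq_top_iff]
  intro f _
  obtain ⟨Q, P, hQ, hQf⟩ := hspan f
  have hQF : algebraMap R[X] F Q ≠ 0 := by
    intro h0
    exact hQ ((FaithfulSMul.algebraMap_injective R[X] F) (by rw [h0, map_zero]))
  have hQK : algebraMap R[X] (FractionRing R[X]) Q ≠ 0 := by
    intro h0
    apply hQF
    rw [IsScalarTower.algebraMap_apply R[X] (FractionRing R[X]) F, h0, map_zero]
  have hf : f = ∑ i, ((algebraMap R[X] (FractionRing R[X]) Q)⁻¹ *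
      algebraMap R[X] (FractionRing R[X]) (P i)) • b i := by
    have h1 : ∀ i, ((algebraMap R[X] (FractionRing R[X]) Q)⁻¹ *
        algebraMap R[X] (FractionRing R[X]) (P i)) • b i =
        (algebraMap R[X] F Q)⁻¹ * (algebraMap R[X] F (P i) * b i) := by
      intro i
      rw [Algebra.smul_def, map_mul, map_inv₀,
        ← IsScalarTower.algebraMap_apply R[X] (FractionRing R[X]) F,
        ← IsScalarTower.algebraMap_apply R[X] (FractionRing R[X]) F, mul_assoc]
    rw [Finset.sum_congr rfl (fun i _ => h1 i), ← Finset.mul_sum, ← hQf, ← mul_assoc,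
      inv_mul_cancel₀ hQF, one_mul]
  rw [hf]
  exact Submodule.sum_mem _ fun i _ =>
    Submodule.smul_mem _ _ (Submodule.subset_span ⟨i, rfl⟩)

/-- **Uniqueness of the Gauss extension.**  `R[X] → F` injective, `V₁`, `V₂` Gauss extensions
with uniformiser `ϖ`, `b` a family of `n` elements of `V₁` with independent residues, spanning
`F` over `Frac R[X]` in denominator form.  Then `V₁ = V₂`. -/
theorem eq_of_gauss_indep {ϖ : R} {V₁ V₂ : ValuationSubring F} {n : ℕ} {b : Fin n → F}
    (prime : Prime ϖ)
    (unif₁ : IsUnif V₁ (algebraMap R[X] F (C ϖ)))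
    (unif₂ : IsUnif V₂ (algebraMap R[X] F (C ϖ)))
    (poly₁ : ∀ P : R[X], algebraMap R[X] F P ∈ V₁)
    (poly₂ : ∀ P : R[X], algebraMap R[X] F P ∈ V₂)
    (gauss₁ : ∀ P : R[X], ¬ C ϖ ∣ P → (algebraMap R[X] F P)⁻¹ ∈ V₁)
    (gauss₂ : ∀ P : R[X], ¬ C ϖ ∣ P → (algebraMap R[X] F P)⁻¹ ∈ V₂)
    (b_mem : ∀ i, b i ∈ V₁)
    (b_indep : ∀ a : Fin n → R[X],
      (∑ i, algebraMap R[X] F (a i) * b i) * (algebraMap R[X] F (C ϖ))⁻¹ ∈ V₁ →
        ∀ i, C ϖ ∣ a i)
    (hspan : ∀ f : F, ∃ (Q : R[X]) (P : Fin n → R[X]), Q ≠ 0 ∧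
      algebraMap R[X] F Q * f = ∑ i, algebraMap R[X] F (P i) * b i) : V₁ = V₂ := by
  have htop := span_eq_top_of_denominators (R := R) hspan
  have : Module.Finite (FractionRing R[X]) F := by
    refine ⟨?_⟩
    rw [← htop]
    exact Submodule.fg_span (Set.finite_range b)
  have hle : Module.finrank (FractionRing R[X]) F ≤ n := by
    have := finrank_le_of_span_eq_top (R := FractionRing R[X]) htop
    simpa using this
  exact eq_of_gauss_indep_of_finrank_le (K := FractionRing R[X]) prime unif₁ unif₂ poly₁ poly₂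
    gauss₁ gauss₂ b_mem b_indep hle

end Lift

end Fermat.Agent.A2.Mod.H872
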