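import Fermat.Agent.A2.Mod.Spec
import Fermat.Agent.A2.Mod.H872.Unique
import Fermat.Agent.A2.Mod.H872.PolyJ
import Fermat.Agent.S18.H516.CoreRes

/-!
# A2 / MOD leaf L7 `FrickeStable` (helper872)

`frickeStable : FrickeStableStatement P E M q w` — EXACT statement of the leaf L7 of
`Fermat/Agent/A2/Mod/Spec.lean` (architect helper994): at level `M` prime to `q` the Fricke
involution `W` preserves the Gauss valuation ring `V∞`.

Proof.  `V₁ := V∞` and `V₂ := V∞ ∘ W` are valuation rings of `F_M` with uniformiser `w`; both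
contain `R[j]` and induce the Gauss valuation on `E(j)` (for `V₂`: `W j = j_M` is again a polar
integral series).  By `S28.CoreData M k` (row S28, on main) there are `n` integral monomials
`y_i` spanning `F_M` over `E(j)` whose reductions are linearly independent over `k(j̄)`.
Hence `[F_M : E(j)] ≤ n ≤ f(V₁ / Gauss)`, and the fundamental inequality
(`H48.GaussPairLe.card`, via `eq_of_gauss_indep`) leaves no room for a second extension:
`V₂ = V₁`.
-/

set_option autoImplicit false
set_option synthInstance.maxHeartbeats 400000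
set_option maxHeartbeats 1600000
set_option linter.unusedSectionVars false
set_option linter.style.haveILetI false

noncomputable section

namespace Fermat.Agent.A2.Mod.H872

open ModularCurve HahnSeries Polynomial Fermat.Agent.A2.H708 Fermat.Agent.A2.H48
open Fermat.Agent.S28 (CoreData jField intDivisorExpansions)
open Fermat.Agent.S37 (H700.evalJ)

variable (P : ValuationSubring Qb) (E : IntermediateField ℚ Qb) (M : ℕ) [NeZero M]

/-- Evaluation `R_E[X] → F_M`, `X ↦ x`, as a ring homomorphism (`= Mod.ev`). -/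
def phiJ (x : FE E M) : Polynomial (RE P E) →+* FE E M :=
  Polynomial.eval₂RingHom ((algebraMap E (FE E M)).comp (RE P E).subtype) x

theorem phiJ_apply (x : FE E M) (p : Polynomial (RE P E)) :
    phiJ P E M x p = ev P E M x p := rfl

theorem phiJ_C (x : FE E M) (r : RE P E) :
    phiJ P E M x (Polynomial.C r) = algebraMap E (FE E M) (r : E) := by
  unfold phiJ
  rw [Polynomial.coe_eval₂RingHom, Polynomial.eval₂_C]
  rfl

/-- the series of `j_d` -/
theorem coe_jE (d : ℕ) [NeZero d] (hd : d ∣ M) :
    ((jE E M d hd : FE E M) : LaurentSeries E) = qExpand E d (jqModC E) :=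
  coeffEmb_qExpand_jq d

theorem coe_phiJ (d : ℕ) [NeZero d] (hd : d ∣ M) (p : Polynomial (RE P E)) :
    ((phiJ P E M (jE E M d hd) p : FE E M) : LaurentSeries E) =
      incl (RE P E) (polyJ (RE P E) d p) :=
  coe_eval₂_eq_incl_polyJ (RE P E) (FE E M) d (coe_jE E M d hd) p

variable {P E M}

theorem phiJ_mem {V : ValuationSubring (FE E M)} (hV : IsVinf P E M V)
    (d : ℕ) [NeZero d] (hd : d ∣ M) (p : Polynomial (RE P E)) :
    phiJ P E M (jE E M d hd) p ∈ V :=
  mem_of_incl hV (coe_phiJ P E M d hd p)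

theorem phiJ_inv_mem [IsDiscreteValuationRing (RE P E)] {V : ValuationSubring (FE E M)}
    (hV : IsVinf P E M V) {w : RE P E} (hw : Irreducible w)
    (d : ℕ) [NeZero d] (hd : d ∣ M) {p : Polynomial (RE P E)} (hp : ¬ Polynomial.C w ∣ p) :
    (phiJ P E M (jE E M d hd) p)⁻¹ ∈ V :=
  inv_mem_of_incl hV (coe_phiJ P E M d hd p)
    (red_polyJ_ne_zero (RE P E) d (map_residue_ne_zero_of_not_C_dvd (RE P E) hw hp))

theorem phiJ_injective (d : ℕ) [NeZero d] (hd : d ∣ M) :
    Function.Injective (phiJ P E M (jE E M d hd)) := by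
  rw [injective_iff_map_eq_zero]
  intro p hp
  have h1 : ((phiJ P E M (jE E M d hd) p : FE E M) : LaurentSeries E) = 0 := by
    rw [hp]; rfl
  rw [coe_phiJ] at h1
  exact (polyJ_eq_zero_iff (RE P E) d p).mp h1

/-- `W` commutes with evaluation of polynomials with constant coefficients. -/
theorem map_phiJ (W : FE E M ≃ₐ[E] FE E M) (x : FE E M) (p : Polynomial (RE P E)) :
    W (phiJ P E M x p) = phiJ P E M (W x) p := by
  unfold phiJ
  rw [Polynomial.coe_eval₂RingHom, Polynomial.coe_eval₂RingHom]
  have := Polynomial.hom_eval₂ p ((algebraMap E (FE E M)).comp (RE P E).subtype)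
    (W : FE E M →+* FE E M) x
  rw [show (W : FE E M →+* FE E M) (Polynomial.eval₂ _ x p) = W (Polynomial.eval₂ _ x p) from rfl]
    at this
  rw [this]
  congr 1
  ext r : 1
  show W (algebraMap E (FE E M) (r : E)) = algebraMap E (FE E M) (r : E)
  exact W.commutes _

theorem liesOverPrime_RE {q : ℕ} (hq : q.Prime) (hP : P.LiesOverPrime q) :
    (RE P E).LiesOverPrime q := by
  have h1 : ((q : ℕ) : Qb) ∈ P.nonunits := hP
  rw [ValuationSubring.mem_nonunits_iff_or] at h1
  have hq0 : ((q : ℕ) : Qb) ≠ 0 := by exact_mod_cast hq.ne_zero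
  have h2 : ((q : ℕ) : Qb)⁻¹ ∉ P := h1.resolve_left hq0
  show ((q : ℕ) : E) ∈ (RE P E).nonunits
  rw [ValuationSubring.mem_nonunits_iff_or]
  right
  intro h3
  apply h2
  have h4 : algebraMap E Qb (((q : ℕ) : E)⁻¹) ∈ P := h3
  rwa [map_inv₀, map_natCast] at h4

/-- The integral monomials of `S28.CoreData` as elements of `F_M`. -/
def bE {n : ℕ} (y : Fin n → LaurentSeries ℤ)
    (hy_mem : ∀ i, y i ∈ Subring.closure (intDivisorExpansions M)) (i : Fin n) : FE E M :=
  ⟨coeffMap (Int.castRingHom E) (y i), by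
    rw [← Fermat.Agent.S37.H700.coeffEmb_intCast E (y i)]
    refine coeffEmb_mem_laurentBaseChange E ?_
    rw [← modularFunctionFieldFullC_rat]
    exact Fermat.Agent.S37.H700.coeffMap_intCast_mem_fullC ℚ M (hy_mem i)⟩

theorem coe_bE {n : ℕ} (y : Fin n → LaurentSeries ℤ)
    (hy_mem : ∀ i, y i ∈ Subring.closure (intDivisorExpansions M)) (i : Fin n) :
    ((bE (E := E) y hy_mem i : FE E M) : LaurentSeries E) =
      incl (RE P E) (coeffMap (Int.castRingHom (RE P E)) (y i)) := by
  show coeffMap (Int.castRingHom E) (y i) = _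
  rw [incl, coeffMap_coeffMap]
  exact coeffMap_congr (RingHom.ext_int _ _) (y i)

theorem red_intCast (y : LaurentSeries ℤ) :
    red (RE P E) (coeffMap (Int.castRingHom (RE P E)) y) =
      coeffMap (Int.castRingHom (IsLocalRing.ResidueField (RE P E))) y := by
  rw [red, coeffMap_coeffMap]
  exact coeffMap_congr (RingHom.ext_int _ _) y

/-- residues of the monomials are independent over `k[j̄]` (polynomial form). -/
theorem bE_indep [IsDiscreteValuationRing (RE P E)] {V : ValuationSubring (FE E M)}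
    (hV : IsVinf P E M V) {w : RE P E} (hw : Irreducible w)
    {n : ℕ} (y : Fin n → LaurentSeries ℤ)
    (hy_mem : ∀ i, y i ∈ Subring.closure (intDivisorExpansions M))
    (hy_ind : LinearIndependent (jField (IsLocalRing.ResidueField (RE P E)))
      (fun i => coeffMap (Int.castRingHom (IsLocalRing.ResidueField (RE P E))) (y i)))
    (a : Fin n → Polynomial (RE P E))
    (ha : (∑ i, phiJ P E M (jE E M 1 (one_dvd M)) (a i) * bE (E := E) y hy_mem i) *
      (algebraMap E (FE E M) (w : E))⁻¹ ∈ V) (i : Fin n) : Polynomial.C w ∣ a i := by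
  classical
  set U : LaurentSeries (RE P E) :=
    ∑ i, polyJ (RE P E) 1 (a i) * coeffMap (Int.castRingHom (RE P E)) (y i) with hU
  have hcoe : ((∑ i, phiJ P E M (jE E M 1 (one_dvd M)) (a i) * bE (E := E) y hy_mem i :
      FE E M) : LaurentSeries E) = incl (RE P E) U := by
    rw [hU, map_sum]
    have h1 : ((∑ i, phiJ P E M (jE E M 1 (one_dvd M)) (a i) * bE (E := E) y hy_mem i :
        FE E M) : LaurentSeries E) =
        ∑ i, (((phiJ P E M (jE E M 1 (one_dvd M)) (a i) * bE (E := E) y hy_mem i : FE E M)) :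
          LaurentSeries E) := map_sum (FE E M).val _ _
    rw [h1]
    refine Finset.sum_congr rfl fun i _ => ?_
    rw [map_mul, ← coe_phiJ P E M 1 (one_dvd M), ← coe_bE (P := P) y hy_mem i]
    rfl
  have hw0 : ((w : RE P E) : E) ≠ 0 := fun h => hw.ne_zero (Subtype.ext h)
  have hwres : IsLocalRing.residue (RE P E) w = 0 := by
    rw [IsLocalRing.residue_eq_zero_iff, IsLocalRing.mem_maximalIdeal, mem_nonunits_iff]
    exact hw.not_isUnit
  have hred : red (RE P E) U = 0 := red_eq_zero_of_mul_inv_mem hV hcoe hw0 hwres ha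
  have hred' : ∑ i, H700.evalJ (IsLocalRing.ResidueField (RE P E))
      ((a i).map (IsLocalRing.residue (RE P E))) *
        coeffMap (Int.castRingHom (IsLocalRing.ResidueField (RE P E))) (y i) = 0 := by
    rw [← hred, hU, map_sum]
    refine Finset.sum_congr rfl fun i _ => ?_
    rw [map_mul, red_polyJ, qExpand_one_apply, red_intCast]
  have hall := Fermat.Agent.S37.H700.eq_zero_of_sum_evalJ_eq_zero _ hy_ind _ hred'
  exact C_dvd_of_map_residue_eq_zero (RE P E) hw (hall i)

/-- the monomials span `F_M` over `E(j)` (denominator form over `R_E[j]`). -/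
theorem bE_span {n : ℕ} (y : Fin n → LaurentSeries ℤ)
    (hy_mem : ∀ i, y i ∈ Subring.closure (intDivisorExpansions M))
    (hy_span : ∀ x ∈ modularFunctionFieldFull M,
      x ∈ Submodule.span (jField ℚ) (Set.range fun i => coeffMap (Int.castRingHom ℚ) (y i)))
    (f : FE E M) :
    ∃ (Q : Polynomial (RE P E)) (Pl : Fin n → Polynomial (RE P E)), Q ≠ 0 ∧
      phiJ P E M (jE E M 1 (one_dvd M)) Q * f =
        ∑ i, phiJ P E M (jE E M 1 (one_dvd M)) (Pl i) * bE (E := E) y hy_mem i := by
  classical
  obtain ⟨Q₀, P₀, hQ₀, h₀⟩ := Fermat.Agent.S37.H700.exists_denominator E y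
    (Fermat.Agent.S37.H700.mem_spanL_of_mem_baseChange E y M hy_mem hy_span f.2)
  obtain ⟨c, hc, P', hP', -⟩ := Fermat.Agent.S37.H700.normalize_family (RE P E)
    (fun o : Option (Fin n) => o.elim Q₀ P₀) ⟨none, hQ₀⟩
  have hQ' : (P' none).map (RE P E).subtype = Polynomial.C c * Q₀ := hP' none
  have hPi : ∀ i, (P' (some i)).map (RE P E).subtype = Polynomial.C c * P₀ i :=
    fun i => hP' (some i)
  refine ⟨P' none, fun i => P' (some i), ?_, ?_⟩
  · intro h0
    rw [h0, Polynomial.map_zero] at hQ'
    rcases mul_eq_zero.mp hQ'.symm with h1 | h1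
    · exact hc (Polynomial.C_eq_zero.mp h1)
    · exact hQ₀ h1
  · apply Subtype.ext
    have h1 : ((∑ i, phiJ P E M (jE E M 1 (one_dvd M)) (P' (some i)) * bE (E := E) y hy_mem i :
        FE E M) : LaurentSeries E) =
        ∑ i, (((phiJ P E M (jE E M 1 (one_dvd M)) (P' (some i)) * bE (E := E) y hy_mem i :
          FE E M)) : LaurentSeries E) := map_sum (FE E M).val _ _
    rw [h1]
    show ((phiJ P E M (jE E M 1 (one_dvd M)) (P' none) : FE E M) : LaurentSeries E) *
      (f : LaurentSeries E) = _
    rw [coe_phiJ, incl_polyJ, qExpand_one_apply, hQ', Fermat.Agent.S37.H700.evalJ_mul,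
      mul_assoc, h₀, Finset.mul_sum]
    refine Finset.sum_congr rfl fun i _ => ?_
    show _ = ((phiJ P E M (jE E M 1 (one_dvd M)) (P' (some i)) : FE E M) : LaurentSeries E) *
      ((bE (E := E) y hy_mem i : FE E M) : LaurentSeries E)
    rw [coe_phiJ, incl_polyJ, qExpand_one_apply, hPi, Fermat.Agent.S37.H700.evalJ_mul,
      mul_assoc]
    rfl

/-- `w` generates the maximal ideal of `V∞ ∘ W`. -/
theorem isUnif_comap {V : ValuationSubring (FE E M)} (W : FE E M ≃ₐ[E] FE E M) {c : E}
    (h : IsUnif V (algebraMap E (FE E M) c)) :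
    IsUnif (V.comap (W : FE E M →+* FE E M)) (algebraMap E (FE E M) c) := by
  have hWc : W (algebraMap E (FE E M) c) = algebraMap E (FE E M) c := W.commutes c
  refine ⟨?_, ?_, ?_⟩
  · rw [ValuationSubring.mem_comap]
    show W (algebraMap E (FE E M) c) ∈ V
    rw [hWc]; exact h.mem
  · rw [ValuationSubring.mem_comap]
    show ¬ W ((algebraMap E (FE E M) c)⁻¹) ∈ V
    rw [map_inv₀, hWc]; exact h.inv_not_mem
  · intro f hf hfinv
    rw [ValuationSubring.mem_comap] at hf hfinv ⊢
    have hf' : W f ∈ V := hf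
    have hfinv' : (W f)⁻¹ ∉ V := by
      intro h1
      apply hfinv
      show W f⁻¹ ∈ V
      rw [map_inv₀]; exact h1
    have := h.gen (W f) hf' hfinv'
    show W (f * (algebraMap E (FE E M) c)⁻¹) ∈ V
    rw [map_mul, map_inv₀, hWc]
    exact this

/-- **Leaf L7 of A2/MOD** (exact statement of `Mod.FrickeStableStatement`): at level `M` prime
to `q` the Fricke involution preserves the Gauss valuation ring `V∞`. -/
theorem frickeStable (P : ValuationSubring Qb) (E : IntermediateField ℚ Qb) (M q : ℕ)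
    [NeZero M] [NeZero q] (w : RE P E) : FrickeStableStatement P E M q w := by
  intro hS V W hV hW
  haveI : IsDiscreteValuationRing (RE P E) := hS.dvr
  haveI : Fact q.Prime := ⟨hS.q_prime⟩
  have hw : Irreducible w := hS.unif
  haveI : CharP (IsLocalRing.ResidueField (RE P E)) q :=
    Fermat.Agent.S18.H516.charP_residue (RE P E) (liesOverPrime_RE hS.q_prime hS.lies_over)
  have hcore : CoreData M (IsLocalRing.ResidueField (RE P E)) :=
    Fermat.Agent.S18.H516.coreData_of_charP M q hS.q_not_dvd _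
  obtain ⟨n, y, hy_mem, hy_span, hy_ind⟩ := hcore.exists_basis
  -- the generators
  have hWj : W (jE E M 1 (one_dvd M)) = jE E M M dvd_rfl :=
    hW.1 1 M (one_dvd M) dvd_rfl (one_mul M)
  -- the algebra structure `R_E[X] → F_M`, `X ↦ j`
  letI : Algebra (Polynomial (RE P E)) (FE E M) :=
    (phiJ P E M (jE E M 1 (one_dvd M))).toAlgebra
  haveI : FaithfulSMul (Polynomial (RE P E)) (FE E M) :=
    (faithfulSMul_iff_algebraMap_injective _ _).mpr (phiJ_injective 1 (one_dvd M))
  have halg : ∀ p : Polynomial (RE P E),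
      algebraMap (Polynomial (RE P E)) (FE E M) p = phiJ P E M (jE E M 1 (one_dvd M)) p :=
    fun _ => rfl
  have hCw : algebraMap (Polynomial (RE P E)) (FE E M) (Polynomial.C w) =
      algebraMap E (FE E M) (w : E) := by
    rw [halg, phiJ_C]
  have hunif : IsUnif V (algebraMap E (FE E M) (w : E)) :=
    isUnif_of_isGauss hV (intGen_full M) hw
  have key : V = V.comap (W : FE E M →+* FE E M) := by
    refine eq_of_gauss_indep (R := RE P E) (ϖ := w)
      (b := bE (E := E) y hy_mem)
      (UniqueFactorizationMonoid.irreducible_iff_prime.mp hw) ?_ ?_ ?_ ?_ ?_ ?_ ?_ ?_ ?_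
    · rw [hCw]; exact hunif
    · rw [hCw]; exact isUnif_comap W hunif
    · intro p
      rw [halg]
      exact phiJ_mem hV 1 (one_dvd M) p
    · intro p
      rw [halg, ValuationSubring.mem_comap]
      show W (phiJ P E M (jE E M 1 (one_dvd M)) p) ∈ V
      rw [map_phiJ, hWj]
      exact phiJ_mem hV M dvd_rfl p
    · intro p hp
      rw [halg]
      exact phiJ_inv_mem hV hw 1 (one_dvd M) hp
    · intro p hp
      rw [halg, ValuationSubring.mem_comap]
      show W (phiJ P E M (jE E M 1 (one_dvd M)) p)⁻¹ ∈ V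
      rw [map_inv₀, map_phiJ, hWj]
      exact phiJ_inv_mem hV hw M dvd_rfl hp
    · intro i
      exact mem_of_incl hV (coe_bE (P := P) y hy_mem i)
    · intro a ha i
      rw [hCw] at ha
      exact bE_indep hV hw y hy_mem hy_ind a ha i
    · intro f
      exact bE_span y hy_mem hy_span f
  intro f hf
  have h1 : f ∈ V.comap (W : FE E M →+* FE E M) := key ▸ hf
  exact h1

end Fermat.Agent.A2.Mod.H872
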