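import Fermat.Agent.A2.H708.GaussInfModular
import Fermat.Agent.A2.H48.TwoVal

/-!
# A2 / MOD leaf L7 (helper872), part 2: elementary facts on the Gauss valuation ring

`L ⊇ ℚ` a field, `A` a valuation subring of `L`, `F₀ ⊆ ℚ((t))`, `F = L·F₀ ⊆ L((t))`,
`V` a valuation subring of `F` with `f ∈ V ↔ H708.IsGaussInt A F₀ f` (the Gauss valuation ring).

* `mem_of_incl`, `inv_mem_of_incl` : integral series lie in `V`; primitive ones are units;
* `red_eq_zero_of_mul_inv_mem` : an integral series divisible by a non-unit constant in `V` has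
  zero reduction;
* `isUnif_of_isGauss` : if `A` is a discrete valuation ring with uniformiser `w`, then `w`
  generates the maximal ideal of `V` (`H48.IsUnif`).
-/

set_option autoImplicit false

noncomputable section

namespace Fermat.Agent.A2.Mod.H872

open ModularCurve HahnSeries Fermat.Agent.A2.H708 Fermat.Agent.A2.H48

variable {L : Type*} [Field L] [Algebra ℚ L] {A : ValuationSubring L}
  {F₀ : IntermediateField ℚ (LaurentSeries ℚ)}
  {V : ValuationSubring ↥(laurentBaseChange L F₀)}

/-- Integral series lie in the Gauss ring. -/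
theorem mem_of_incl (hV : ∀ f : ↥(laurentBaseChange L F₀), f ∈ V ↔
      IsGaussInt A F₀ (f : LaurentSeries L))
    {f : ↥(laurentBaseChange L F₀)} {U : LaurentSeries A}
    (hf : (f : LaurentSeries L) = incl A U) : f ∈ V := by
  rw [hV, hf]
  exact IsGaussInt.of_incl U

/-- Primitive integral series are units of the Gauss ring. -/
theorem inv_mem_of_incl (hV : ∀ f : ↥(laurentBaseChange L F₀), f ∈ V ↔
      IsGaussInt A F₀ (f : LaurentSeries L))
    {f : ↥(laurentBaseChange L F₀)} {U : LaurentSeries A}
    (hf : (f : LaurentSeries L) = incl A U) (hU : red A U ≠ 0) : f⁻¹ ∈ V := by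
  rw [hV]
  have hU0 : incl A U ≠ 0 := incl_ne_zero A (ne_zero_of_red_ne_zero A hU)
  refine ⟨1, U, hU, ?_, ?_⟩
  · rw [← hf]; exact f.2
  · rw [IntermediateField.coe_inv, hf, inv_mul_cancel₀ hU0, map_one]

/-- The constant `c ∈ A` as an integral series. -/
theorem coe_algebraMap_eq_incl (c : A) :
    ((algebraMap L ↥(laurentBaseChange L F₀) (c : L) : ↥(laurentBaseChange L F₀)) :
      LaurentSeries L) = incl A (cstA A c) := by
  rw [incl_cstA]
  rfl

/-- An integral series which is divisible in `V` by a non-unit constant has zero reduction. -/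
theorem red_eq_zero_of_mul_inv_mem (hV : ∀ f : ↥(laurentBaseChange L F₀), f ∈ V ↔
      IsGaussInt A F₀ (f : LaurentSeries L))
    {f : ↥(laurentBaseChange L F₀)} {U : LaurentSeries A}
    (hf : (f : LaurentSeries L) = incl A U) {w : A} (hw0 : (w : L) ≠ 0)
    (hw : IsLocalRing.residue A w = 0)
    (h : f * (algebraMap L ↥(laurentBaseChange L F₀) (w : L))⁻¹ ∈ V) : red A U = 0 := by
  rw [hV] at h
  obtain ⟨U₁, U₂, hU₂, -, he⟩ := h
  have hcw : cst (w : L) ≠ 0 := cst_ne_zero hw0
  have h1 : incl A (U * U₂) = incl A (cstA A w * U₁) := by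
    rw [map_mul, map_mul, incl_cstA, ← he, ← hf]
    have : ((f * (algebraMap L ↥(laurentBaseChange L F₀) (w : L))⁻¹ :
        ↥(laurentBaseChange L F₀)) : LaurentSeries L) =
        (f : LaurentSeries L) * (cst (w : L))⁻¹ := by
      rw [IntermediateField.coe_mul, IntermediateField.coe_inv]
      rfl
    rw [this]
    field_simp
  have h2 : U * U₂ = cstA A w * U₁ := incl_injective A h1
  have h3 := congrArg (red A) h2
  rw [map_mul, map_mul, red_cstA, hw, HahnSeries.single_eq_zero, zero_mul] at h3
  rcases mul_eq_zero.mp h3 with h4 | h4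
  · exact h4
  · exact absurd h4 hU₂

section Unif

variable [IsDiscreteValuationRing A]

/-- `V` is the valuation subring `H708.gaussInf`. -/
theorem eq_gaussInf (hV : ∀ f : ↥(laurentBaseChange L F₀), f ∈ V ↔
      IsGaussInt A F₀ (f : LaurentSeries L)) (hgen : IntGen F₀) :
    V = gaussInf A F₀ hgen (attainsMax_of_isNoetherianRing A F₀) := by
  ext f
  rw [hV, mem_gaussInf_iff]

/-- If `A` is a discrete valuation ring with uniformiser `w`, then `w` generates the maximal
ideal of the Gauss valuation ring. -/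
theorem isUnif_of_isGauss (hV : ∀ f : ↥(laurentBaseChange L F₀), f ∈ V ↔
      IsGaussInt A F₀ (f : LaurentSeries L)) (hgen : IntGen F₀)
    {w : A} (hw : Irreducible w) :
    IsUnif V (algebraMap L ↥(laurentBaseChange L F₀) (w : L)) := by
  have hVG := eq_gaussInf hV hgen
  set G := gaussInf A F₀ hgen (attainsMax_of_isNoetherianRing A F₀) with hG
  have hw0 : (w : L) ≠ 0 := by
    intro h
    exact hw.ne_zero (Subtype.ext h)
  have hconst : ∀ c : L, algebraMap L ↥(laurentBaseChange L F₀) c ∈ V ↔ c ∈ A := by
    intro c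
    rw [hVG]
    exact algebraMap_mem_gaussInf_iff hgen _ c
  have hwinv : (w : L)⁻¹ ∉ A := by
    intro h
    apply hw.not_isUnit
    refine isUnit_iff_exists_inv.mpr ⟨⟨(w : L)⁻¹, h⟩, ?_⟩
    apply Subtype.ext
    show (w : L) * (w : L)⁻¹ = 1
    exact mul_inv_cancel₀ hw0
  refine ⟨(hconst _).mpr w.2, ?_, ?_⟩
  · rw [← map_inv₀, hconst]
    exact hwinv
  · intro f hf hfinv
    have hf0 : f ≠ 0 := by
      rintro rfl
      exact hfinv (by rw [inv_zero]; exact zero_mem _)
    rw [hVG] at hf hfinv ⊢
    obtain ⟨c, hc0, hc⟩ := exists_const_mul_unit hgen (attainsMax_of_isNoetherianRing A F₀) hf0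
    -- `v(f) < 1`
    have hvf : G.valuation f < 1 := by
      have h1 : G.valuation f ≤ 1 := (G.valuation_le_one_iff f).mpr hf
      rcases lt_or_eq_of_le h1 with h2 | h2
      · exact h2
      · exfalso
        apply hfinv
        rw [← G.valuation_le_one_iff, map_inv₀, h2, inv_one]
    -- `v(c) = v(f)`
    have hvc0 : G.valuation (algebraMap L ↥(laurentBaseChange L F₀) c) ≠ 0 :=
      (Valuation.ne_zero_iff _).mpr (by
        intro h
        exact hc0 ((map_eq_zero _).mp h))
    have hvc : G.valuation (algebraMap L ↥(laurentBaseChange L F₀) c) = G.valuation f := by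
      rw [map_mul, map_inv₀] at hc
      have := (mul_inv_eq_one₀ hvc0).mp hc
      exact this.symm
    -- `c ∈ A`, `c` not a unit
    have hcA : c ∈ A := by
      rw [← algebraMap_mem_gaussInf_iff hgen (attainsMax_of_isNoetherianRing A F₀) c,
        ← G.valuation_le_one_iff, hvc]
      exact hvf.le
    have hcinv : c⁻¹ ∉ A := by
      intro h
      have h1 : algebraMap L ↥(laurentBaseChange L F₀) c⁻¹ ∈ G :=
        (algebraMap_mem_gaussInf_iff hgen (attainsMax_of_isNoetherianRing A F₀) c⁻¹).mpr h
      rw [← G.valuation_le_one_iff, map_inv₀, map_inv₀, hvc] at h1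
      have hvf0 : G.valuation f ≠ 0 := (Valuation.ne_zero_iff _).mpr hf0
      rw [inv_le_one₀ (zero_lt_iff.mpr hvf0)] at h1
      exact absurd hvf (not_lt.mpr h1)
    -- `w ∣ c` in `A`
    have hcm : (⟨c, hcA⟩ : A) ∈ IsLocalRing.maximalIdeal A := by
      rw [IsLocalRing.mem_maximalIdeal, mem_nonunits_iff]
      intro hu
      obtain ⟨d, hd⟩ := isUnit_iff_exists_inv.mp hu
      apply hcinv
      have h1 : c * (d : L) = 1 := congrArg Subtype.val hd
      have : c⁻¹ = (d : L) := inv_eq_of_mul_eq_one_right h1
      rw [this]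
      exact d.2
    rw [hw.maximalIdeal_eq, Ideal.mem_span_singleton] at hcm
    obtain ⟨r, hr⟩ := hcm
    have hcr : c = (w : L) * (r : L) := congrArg Subtype.val hr
    -- conclusion
    rw [← G.valuation_le_one_iff]
    have hfw : f * (algebraMap L ↥(laurentBaseChange L F₀) (w : L))⁻¹ =
        (f * (algebraMap L ↥(laurentBaseChange L F₀) c)⁻¹) *
          algebraMap L ↥(laurentBaseChange L F₀) (r : L) := by
      have hwF : algebraMap L ↥(laurentBaseChange L F₀) (w : L) ≠ 0 := by
        intro h
        exact hw0 ((map_eq_zero _).mp h)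
      have hcF : algebraMap L ↥(laurentBaseChange L F₀) c ≠ 0 := by
        intro h
        exact hc0 ((map_eq_zero _).mp h)
      have hcr' : algebraMap L ↥(laurentBaseChange L F₀) c =
          algebraMap L ↥(laurentBaseChange L F₀) (w : L) *
            algebraMap L ↥(laurentBaseChange L F₀) (r : L) := by
        rw [hcr, map_mul]
      have hrF : algebraMap L ↥(laurentBaseChange L F₀) (r : L) ≠ 0 := by
        intro h
        rw [hcr', h, mul_zero] at hcF
        exact hcF rfl
      rw [hcr']
      field_simp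
    rw [hfw, map_mul, hc, one_mul, G.valuation_le_one_iff]
    exact (algebraMap_mem_gaussInf_iff hgen (attainsMax_of_isNoetherianRing A F₀) _).mpr r.2

end Unif

end Fermat.Agent.A2.Mod.H872
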